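import Fermat.Agent.S16.H346.ThDefs

/-!
# S16 / WP TH, sub-package TR (helper139): lattice algebra used by the `S`/`T` laws

Pure integer matrix algebra for a good lattice `(A, B)`, `A * B = p`.
-/

set_option autoImplicit false
set_option linter.unusedSectionVars false

noncomputable section

namespace Fermat.Agent.S16.H139

open Matrix
open Fermat.Agent.S16.H346

variable {p : ℕ} [Fact p.Prime] {A B : Matrix (Fin 4) (Fin 4) ℤ}

theorem p_ne_zero_int : (p : ℤ) ≠ 0 := by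
  exact_mod_cast (Fact.out : p.Prime).ne_zero

/-- left cancellation of a matrix with nonzero determinant -/
theorem mat_left_cancel {M X Y : Matrix (Fin 4) (Fin 4) ℤ} (hM : M.det ≠ 0)
    (h : M * X = M * Y) : X = Y := by
  have h1 := congrArg (fun Z => M.adjugate * Z) h
  simp only [← Matrix.mul_assoc, Matrix.adjugate_mul, Matrix.smul_mul, Matrix.one_mul] at h1
  exact smul_right_injective _ hM h1

/-- right cancellation of a matrix with nonzero determinant -/
theorem mat_right_cancel {M X Y : Matrix (Fin 4) (Fin 4) ℤ} (hM : M.det ≠ 0)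
    (h : X * M = Y * M) : X = Y := by
  have h1 := congrArg (fun Z => Z * M.adjugate) h
  simp only [Matrix.mul_assoc, Matrix.mul_adjugate, Matrix.mul_smul, Matrix.mul_one] at h1
  exact smul_right_injective _ hM h1

theorem det_A_ne_zero (hA : IsGoodLattice p A B) : A.det ≠ 0 := by
  rw [hA.det_eq]; exact pow_ne_zero _ p_ne_zero_int

/-- `B * A = p`. -/
theorem B_mul_A (hA : IsGoodLattice p A B) :
    B * A = (p : ℤ) • (1 : Matrix (Fin 4) (Fin 4) ℤ) := by
  have h1 : A * (B * A) = A * ((p : ℤ) • (1 : Matrix (Fin 4) (Fin 4) ℤ)) := by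
    rw [← Matrix.mul_assoc, hA.mul_eq, Matrix.smul_mul, Matrix.mul_smul, Matrix.one_mul,
      Matrix.mul_one]
  exact mat_left_cancel (det_A_ne_zero hA) h1

/-- `B` is symmetric. -/
theorem isSymm_B (hA : IsGoodLattice p A B) : B.IsSymm := by
  have h1 : Bᵀ * A = (p : ℤ) • (1 : Matrix (Fin 4) (Fin 4) ℤ) := by
    have := congrArg Matrix.transpose hA.mul_eq
    rw [Matrix.transpose_mul, hA.symm.eq] at this
    simpa using this
  have h2 : Bᵀ * A = B * A := by rw [h1, B_mul_A hA]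
  exact mat_right_cancel (det_A_ne_zero hA) h2

theorem A_mulVec_B (hA : IsGoodLattice p A B) (v : Fin 4 → ℤ) :
    A.mulVec (B.mulVec v) = (p : ℤ) • v := by
  rw [Matrix.mulVec_mulVec, hA.mul_eq, Matrix.smul_mulVec, Matrix.one_mulVec]

theorem B_mulVec_A (hA : IsGoodLattice p A B) (v : Fin 4 → ℤ) :
    B.mulVec (A.mulVec v) = (p : ℤ) • v := by
  rw [Matrix.mulVec_mulVec, B_mul_A hA, Matrix.smul_mulVec, Matrix.one_mulVec]

/-- symmetric matrices are self-adjoint for the dot product -/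
theorem dot_mulVec_comm {M : Matrix (Fin 4) (Fin 4) ℤ} (hM : M.IsSymm) (v w : Fin 4 → ℤ) :
    v ⬝ᵥ M.mulVec w = w ⬝ᵥ M.mulVec v := by
  rw [Matrix.dotProduct_mulVec, ← Matrix.mulVec_transpose, hM.eq, dotProduct_comm]

theorem qf_add (M : Matrix (Fin 4) (Fin 4) ℤ) (hM : M.IsSymm) (v w : Fin 4 → ℤ) :
    qf M (v + w) = qf M v + 2 * (v ⬝ᵥ M.mulVec w) + qf M w := by
  simp only [qf, Matrix.mulVec_add, dotProduct_add, add_dotProduct]
  rw [dot_mulVec_comm hM w v]
  ring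

theorem mulVec_injective (hA : IsGoodLattice p A B) : Function.Injective A.mulVec := by
  intro x y h
  have h1 := congrArg B.mulVec h
  rw [B_mulVec_A hA, B_mulVec_A hA] at h1
  exact smul_right_injective _ p_ne_zero_int h1

theorem B_mulVec_injective (hA : IsGoodLattice p A B) : Function.Injective B.mulVec := by
  intro x y h
  have h1 := congrArg A.mulVec h
  rw [A_mulVec_B hA, A_mulVec_B hA] at h1
  exact smul_right_injective _ p_ne_zero_int h1

theorem qf_B_add_mulVec (hA : IsGoodLattice p A B) (y u : Fin 4 → ℤ) :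
    qf B (y + A.mulVec u) = qf B y + (p : ℤ) * (2 * (u ⬝ᵥ y) + qf A u) := by
  rw [qf_add B (isSymm_B hA), B_mulVec_A hA]
  have h1 : qf B (A.mulVec u) = (p : ℤ) * qf A u := by
    unfold qf
    rw [B_mulVec_A hA, dotProduct_smul, smul_eq_mul, dotProduct_comm]
  rw [h1, dotProduct_smul, smul_eq_mul, dotProduct_comm y u]
  ring

/-- the exponent of the theta series with characteristic is `(px + By)ᵀ A (px + By) / p²`. -/
theorem expo_eq (hA : IsGoodLattice p A B) (y x : Fin 4 → ℤ) :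
    (p : ℤ) * (p * (qf A x + 2 * (x ⬝ᵥ y)) + qf B y) = qf A ((p : ℤ) • x + B.mulVec y) := by
  rw [qf_add A hA.symm, A_mulVec_B hA]
  have h1 : qf A ((p : ℤ) • x) = (p : ℤ) * (p * qf A x) := by
    unfold qf
    rw [Matrix.mulVec_smul, dotProduct_smul, smul_dotProduct, smul_eq_mul, smul_eq_mul]
  have h2 : qf A (B.mulVec y) = (p : ℤ) * qf B y := by
    unfold qf
    rw [A_mulVec_B hA, dotProduct_smul, smul_eq_mul, dotProduct_comm]
  rw [h1, h2, dotProduct_smul, smul_dotProduct, smul_eq_mul, smul_eq_mul]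
  ring

/-- `qf B w = qf A (B w) / p`. -/
theorem qf_A_B_mulVec (hA : IsGoodLattice p A B) (w : Fin 4 → ℤ) :
    qf A (B.mulVec w) = (p : ℤ) * qf B w := by
  unfold qf
  rw [A_mulVec_B hA, dotProduct_smul, smul_eq_mul, dotProduct_comm]

theorem even_qf_of_symm {M : Matrix (Fin 4) (Fin 4) ℤ} (hM : M.IsSymm)
    (hev : ∀ i, Even (M i i)) (x : Fin 4 → ℤ) : Even (qf M x) := by
  obtain ⟨k0, h0⟩ := hev 0
  obtain ⟨k1, h1⟩ := hev 1
  obtain ⟨k2, h2⟩ := hev 2
  obtain ⟨k3, h3⟩ := hev 3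
  have s10 : M 1 0 = M 0 1 := hM.apply 0 1
  have s20 : M 2 0 = M 0 2 := hM.apply 0 2
  have s30 : M 3 0 = M 0 3 := hM.apply 0 3
  have s21 : M 2 1 = M 1 2 := hM.apply 1 2
  have s31 : M 3 1 = M 1 3 := hM.apply 1 3
  have s32 : M 3 2 = M 2 3 := hM.apply 2 3
  refine ⟨k0 * x 0 ^ 2 + k1 * x 1 ^ 2 + k2 * x 2 ^ 2 + k3 * x 3 ^ 2 +
    M 0 1 * x 0 * x 1 + M 0 2 * x 0 * x 2 + M 0 3 * x 0 * x 3 + M 1 2 * x 1 * x 2 +
    M 1 3 * x 1 * x 3 + M 2 3 * x 2 * x 3, ?_⟩
  simp only [qf, dotProduct, Matrix.mulVec, Fin.sum_univ_four, h0, h1, h2, h3, s10, s20, s30,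
    s21, s31, s32]
  ring

theorem even_qf_A (hA : IsGoodLattice p A B) (x : Fin 4 → ℤ) : Even (qf A x) :=
  even_qf_of_symm hA.symm hA.even x

theorem even_qf_B (hA : IsGoodLattice p A B) (x : Fin 4 → ℤ) : Even (qf B x) :=
  even_qf_of_symm (isSymm_B hA) hA.even' x

theorem mem_latA {A : Matrix (Fin 4) (Fin 4) ℤ} {y : Fin 4 → ℤ} :
    y ∈ latA A ↔ ∃ x, A.mulVec x = y := by
  simp [latA]

theorem toDisc_eq_iff {A : Matrix (Fin 4) (Fin 4) ℤ} {y r : Fin 4 → ℤ} :
    toDisc A y = toDisc A r ↔ ∃ x, y = r + A.mulVec x := by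
  unfold toDisc
  rw [QuotientAddGroup.eq, mem_latA]
  constructor
  · rintro ⟨x, hx⟩
    refine ⟨-x, ?_⟩
    rw [Matrix.mulVec_neg, hx]; abel
  · rintro ⟨x, rfl⟩
    refine ⟨-x, ?_⟩
    rw [Matrix.mulVec_neg]; abel

end Fermat.Agent.S16.H139
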