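import Fermat.Agent.S16.H139.ThLat
import Fermat.Agent.S16.H756.ThetaSum

/-!
# S16 / WP TH, sub-package TR (helper139): the `T` and `S` laws of the theta series with
characteristic

Exact statements of section TR of `H346/ThSkel.lean`:

* `thetaChar_add_mulVec` : `Θ_{y + A u} = Θ_y`;
* `thetaChar_slash_T`    : `Θ_y ∣[2] T = e(q(y)) Θ_y`;
* `thetaChar_slash_S`    : `Θ_y ∣[2] S = -p⁻¹ ∑_d e(b(r_d, y)) Θ_{r_d}` (from the inversion
  formula `ThetaInv`, regrouped over the discriminant group).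
-/

set_option autoImplicit false
set_option linter.unusedSectionVars false

noncomputable section

namespace Fermat.Agent.S16.H139

open UpperHalfPlane ModularForm MatrixGroups Matrix
open Fermat.Agent.S16.H346

variable {p : ℕ} [Fact p.Prime] {A B : Matrix (Fin 4) (Fin 4) ℤ}

theorem p_ne_zero_complex : (p : ℂ) ≠ 0 := by
  exact_mod_cast (Fact.out : p.Prime).ne_zero

/-- integer numerator of the exponent of `thetaChar`. -/
def expoZ (p : ℕ) (A B : Matrix (Fin 4) (Fin 4) ℤ) (y x : Fin 4 → ℤ) : ℤ :=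
  (p : ℤ) * (qf A x + 2 * (x ⬝ᵥ y)) + qf B y

theorem expo_cast (y x : Fin 4 → ℤ) :
    ((qf A x : ℂ) + 2 * ((x ⬝ᵥ y : ℤ) : ℂ) + (qf B y : ℂ) / p) =
      ((expoZ p A B y x : ℤ) : ℂ) / p := by
  have hp : (p : ℂ) ≠ 0 := p_ne_zero_complex
  unfold expoZ
  push_cast
  field_simp

theorem expoZ_add_mulVec (hA : IsGoodLattice p A B) (y u x : Fin 4 → ℤ) :
    expoZ p A B (y + A.mulVec u) x = expoZ p A B y (x + u) := by
  unfold expoZ
  rw [qf_B_add_mulVec hA, qf_add A hA.symm, dotProduct_add, add_dotProduct,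
    dot_mulVec_comm hA.symm x u]
  ring

theorem thetaChar_add_mulVec (hA : IsGoodLattice p A B) (y u : Fin 4 → ℤ) :
    thetaChar p A B (y + A.mulVec u) = thetaChar p A B y := by
  funext z
  unfold thetaChar
  rw [← (Equiv.addRight u).tsum_eq (fun x : Fin 4 → ℤ =>
    Complex.exp (Real.pi * Complex.I * z *
      ((qf A x : ℂ) + 2 * ((x ⬝ᵥ y : ℤ) : ℂ) + (qf B y : ℂ) / p)))]
  refine tsum_congr fun x => ?_
  rw [expo_cast, expo_cast, expoZ_add_mulVec hA]
  rfl

/-! ### The `T` law -/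

theorem slash_T_apply (f : ℍ → ℂ) (τ : ℍ) :
    (f ∣[(2 : ℤ)] ModularGroup.T) τ = f (ModularGroup.T • τ) := by
  rw [SL_slash_apply]
  have : denom (ModularGroup.T : SL(2, ℤ)) τ = 1 := by
    simp [denom, ModularGroup.coe_T]
  rw [this, _root_.one_zpow, mul_one]

theorem slash_S_apply (f : ℍ → ℂ) (τ : ℍ) :
    (f ∣[(2 : ℤ)] ModularGroup.S) τ = f (ModularGroup.S • τ) * ((τ : ℂ) ^ 2)⁻¹ := by
  rw [SL_slash_apply]
  have : denom (ModularGroup.S : SL(2, ℤ)) τ = τ := by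
    simp [denom, ModularGroup.coe_S]
  rw [this, _root_.zpow_neg]
  norm_cast

theorem coe_T_smul (z : ℍ) : ((ModularGroup.T • z : ℍ) : ℂ) = (z : ℂ) + 1 := by
  rw [UpperHalfPlane.modular_T_smul, UpperHalfPlane.coe_vadd]
  push_cast
  ring

/-- the additive character at `qz` is `exp (π i yᵀBy / p)`. -/
theorem stdAddChar_qz (hA : IsGoodLattice p A B) (y : Fin 4 → ℤ) :
    (ZMod.stdAddChar (qz p B y) : ℂ) =
      Complex.exp (Real.pi * Complex.I * ((qf B y : ℤ) : ℂ) / p) := by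
  obtain ⟨k, hk⟩ := even_qf_B hA y
  have h2 : qf B y / 2 = k := by omega
  unfold qz
  rw [h2, ZMod.stdAddChar_coe, hk]
  congr 1
  push_cast
  ring

/-- the additive character at `bz` is `exp (2 π i yᵀBw / p)`. -/
theorem stdAddChar_bz (y w : Fin 4 → ℤ) :
    (ZMod.stdAddChar (bz p B y w) : ℂ) =
      Complex.exp (2 * Real.pi * Complex.I * ((y ⬝ᵥ B.mulVec w : ℤ) : ℂ) / p) := by
  unfold bz
  rw [ZMod.stdAddChar_coe]

theorem thetaChar_slash_T (hA : IsGoodLattice p A B) (y : Fin 4 → ℤ) :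
    thetaChar p A B y ∣[(2 : ℤ)] ModularGroup.T =
      (ZMod.stdAddChar (qz p B y) : ℂ) • thetaChar p A B y := by
  funext z
  rw [slash_T_apply, Pi.smul_apply, smul_eq_mul]
  unfold thetaChar
  rw [← tsum_mul_left]
  refine tsum_congr fun x => ?_
  rw [coe_T_smul, stdAddChar_qz hA, ← Complex.exp_add, Complex.exp_eq_exp_iff_exists_int]
  obtain ⟨m, hm⟩ := even_qf_A hA x
  refine ⟨m + x ⬝ᵥ y, ?_⟩
  have hp : (p : ℂ) ≠ 0 := p_ne_zero_complex
  rw [hm]
  push_cast
  field_simp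
  ring

/-! ### The dual family and the `S` law -/

/-- the general term of the dual family in the inversion formula. -/
def dualTerm (p : ℕ) (B : Matrix (Fin 4) (Fin 4) ℤ) (y : Fin 4 → ℤ) (z : ℂ)
    (w : Fin 4 → ℤ) : ℂ :=
  Complex.exp (Real.pi * Complex.I * z * ((qf B w : ℂ) / p) +
    2 * Real.pi * Complex.I * (((w ⬝ᵥ B.mulVec y : ℤ) : ℂ) / p))

theorem norm_dualTerm (y w : Fin 4 → ℤ) (z : ℂ) :
    ‖dualTerm p B y z w‖ = Real.exp (-(Real.pi * z.im / p * (qf B w : ℝ))) := by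
  unfold dualTerm
  rw [Complex.norm_exp]
  congr 1
  have h1 : ((qf B w : ℂ) / p) = (((qf B w : ℝ) / p : ℝ) : ℂ) := by push_cast; rfl
  have h2 : (((w ⬝ᵥ B.mulVec y : ℤ) : ℂ) / p) = ((((w ⬝ᵥ B.mulVec y : ℤ) : ℝ) / p : ℝ) : ℂ) := by
    push_cast; rfl
  rw [h1, h2]
  simp only [Complex.add_re, Complex.mul_re, Complex.mul_im, Complex.ofReal_re, Complex.ofReal_im,
    Complex.I_re, Complex.I_im, Complex.re_ofNat, Complex.im_ofNat]
  ring

/-- Gaussian summability for the form `A`. -/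
theorem summable_exp_neg_qf_A (hA : IsGoodLattice p A B) {c : ℝ} (hc : 0 < c) :
    Summable (fun v : Fin 4 → ℤ => Real.exp (-(c * (qf A v : ℝ)))) := by
  have h := H756.summable_exp_neg_qf (M := H756.mR A) hA.posDef hc
  refine h.congr fun v => ?_
  rw [H756.qf_mR]
  rfl

theorem summable_dualTerm (hA : IsGoodLattice p A B) (y : Fin 4 → ℤ) (z : ℍ) :
    Summable (dualTerm p B y (z : ℂ)) := by
  refine Summable.of_norm ?_
  have hp : (0 : ℝ) < p := by exact_mod_cast (Fact.out : p.Prime).pos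
  have hc : 0 < Real.pi * z.im / p ^ 2 := by
    have := z.im_pos
    positivity
  have h := (summable_exp_neg_qf_A hA hc).comp_injective (B_mulVec_injective hA)
  refine h.congr fun w => ?_
  rw [norm_dualTerm, Function.comp_apply, qf_A_B_mulVec hA]
  congr 1
  push_cast
  rw [UpperHalfPlane.coe_im]
  field_simp

theorem dualTerm_add_mulVec (hA : IsGoodLattice p A B) (y r x : Fin 4 → ℤ) (z : ℂ) :
    dualTerm p B y z (r + A.mulVec x) =
      (ZMod.stdAddChar (bz p B r y) : ℂ) * Complex.exp (Real.pi * Complex.I * z *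
        ((qf A x : ℂ) + 2 * ((x ⬝ᵥ r : ℤ) : ℂ) + (qf B r : ℂ) / p)) := by
  unfold dualTerm
  rw [stdAddChar_bz, ← Complex.exp_add, Complex.exp_eq_exp_iff_exists_int]
  refine ⟨x ⬝ᵥ y, ?_⟩
  have hp : (p : ℂ) ≠ 0 := p_ne_zero_complex
  have h1 : (A.mulVec x) ⬝ᵥ B.mulVec y = (p : ℤ) * (x ⬝ᵥ y) := by
    rw [dot_mulVec_comm (isSymm_B hA) (A.mulVec x) y, B_mulVec_A hA, dotProduct_smul,
      smul_eq_mul, dotProduct_comm]
  rw [qf_B_add_mulVec hA, add_dotProduct, h1]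
  push_cast
  field_simp
  ring

/-- the bijection `x ↦ r + A x` from `ℤ⁴` onto the fibre of `toDisc` over the class of `r`. -/
def fibreEquiv (hA : IsGoodLattice p A B) {r : Fin 4 → ℤ} {d : Disc A} (hr : toDisc A r = d) :
    (Fin 4 → ℤ) ≃ ↥(toDisc A ⁻¹' {d}) :=
  Equiv.ofBijective (fun x => ⟨r + A.mulVec x, by
      rw [Set.mem_preimage, Set.mem_singleton_iff, ← hr]
      exact toDisc_eq_iff.mpr ⟨x, rfl⟩⟩) <| by
    constructor
    · intro x x' h
      have h1 : r + A.mulVec x = r + A.mulVec x' := congrArg Subtype.val h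
      exact mulVec_injective hA (add_left_cancel h1)
    · rintro ⟨w, hw⟩
      rw [Set.mem_preimage, Set.mem_singleton_iff, ← hr] at hw
      obtain ⟨x, hx⟩ := toDisc_eq_iff.mp hw
      exact ⟨x, Subtype.ext hx.symm⟩

theorem tsum_dualTerm (hA : IsGoodLattice p A B) [Fintype (Disc A)]
    (r : Disc A → (Fin 4 → ℤ)) (hr : ∀ d, toDisc A (r d) = d) (y : Fin 4 → ℤ) (z : ℍ) :
    ∑' w : Fin 4 → ℤ, dualTerm p B y (z : ℂ) w =
      ∑ d : Disc A, (ZMod.stdAddChar (bz p B (r d) y) : ℂ) * thetaChar p A B (r d) z := by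
  have h2 := ((summable_dualTerm hA y z).hasSum.tsum_fiberwise (toDisc A)).tsum_eq
  rw [← h2, tsum_fintype]
  refine Finset.sum_congr rfl fun d _ => ?_
  rw [← (fibreEquiv hA (hr d)).tsum_eq, thetaChar, ← tsum_mul_left]
  refine tsum_congr fun x => ?_
  exact dualTerm_add_mulVec hA y (r d) x z

theorem thetaChar_slash_S (hA : IsGoodLattice p A B) (hinv : ThetaInv p A B)
    [Fintype (Disc A)] (r : Disc A → (Fin 4 → ℤ)) (hr : ∀ d, toDisc A (r d) = d)
    (y : Fin 4 → ℤ) :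
    thetaChar p A B y ∣[(2 : ℤ)] ModularGroup.S =
      (-(p : ℂ)⁻¹) • ∑ d : Disc A, (ZMod.stdAddChar (bz p B (r d) y) : ℂ) • thetaChar p A B (r d) := by
  funext z
  have hz : (z : ℂ) ≠ 0 := UpperHalfPlane.ne_zero z
  have hp : (p : ℂ) ≠ 0 := p_ne_zero_complex
  have h1 := tsum_dualTerm hA r hr y z
  unfold dualTerm at h1
  rw [slash_S_apply, hinv y z, h1]
  simp only [Pi.smul_apply, Finset.sum_apply, smul_eq_mul]
  field_simp

end Fermat.Agent.S16.H139
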